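import Fermat.Agent.MR.PLC.End.Final
import Fermat.Agent.MR.PLC.End.SerProof
import Fermat.Agent.MR.PLC.SP.Conc
import Fermat.Agent.MR.PLC.Desc.Main
import Fermat.Agent.MR.PLC.Met.Contract

/-!
# MR / PLC : `plStatement : MR.PLStatement` (wild Picard-Lefschetz + peu ramifié ⟹ constant slopes).
-/

set_option autoImplicit false

namespace Fermat.Agent.MR.PLC

/-- **The contract PL of project MR.** -/
theorem plStatement : PLStatement :=
  End.plStatement_of End.serStatement SP.spStatement Desc.descStatement Met.metStatement

end Fermat.Agent.MR.PLC
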